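import Fermat.Agent.S55.K.Spec

/-!
# S55 / layer K : basic cochain lemmas for the leaves K-T3, K-T4   (helper724)

* additive equivariant maps between representations over DIFFERENT coefficient rings commute
  with the differentials `d₀₁`, `d₁₂`, `d₂₃`, `d34` (`comp_d01`, …);
* `K-I3` in degrees 0 and 1 (`smooth_of_d01_lc`, `smooth_of_d12_lc`);
* a smooth level-constant cochain has level-constant coboundary (`d01_lc_of_smooth`,
  `d12_lc_of_smooth`);
* common normal levels for finitely many smooth elements (`exists_common_level`);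
* level-constant functions have finitely many values (`finite_range_of_lc`).
-/

set_option autoImplicit false

noncomputable section

namespace Fermat.Agent.S55.K.H724

open groupCohomology Fermat.Agent.S55.PT Fermat.Agent.S55.K

/-! ### additive equivariant maps -/

section Equiv

variable {G : Type} [Group G] {k k' : Type} [CommRing k] [CommRing k']
variable {A : Rep.{0, 0, 0} k G} {B : Rep.{0, 0, 0} k' G}

/-- `φ : A →+ B` commutes with the actions. -/
def IsAddEquivariant (φ : A →+ B) : Prop := ∀ (g : G) (a : A), φ (A.ρ g a) = B.ρ g (φ a)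

variable {φ : A →+ B} (hφ : IsAddEquivariant φ)

include hφ

lemma comp_d01 (a : A) : (φ ∘ (d₀₁ A).hom a : G → B) = (d₀₁ B).hom (φ a) := by
  funext g
  simp only [Function.comp_apply, d₀₁_hom_apply, map_sub]
  rw [hφ g a]

lemma comp_d12 (f : G → A) : (φ ∘ (d₁₂ A).hom f : G × G → B) = (d₁₂ B).hom (φ ∘ f) := by
  funext ⟨g, h⟩
  simp only [Function.comp_apply, d₁₂_hom_apply, map_sub, map_add]
  rw [hφ g _]

lemma comp_d23 (f : G × G → A) :
    (φ ∘ (d₂₃ A).hom f : G × G × G → B) = (d₂₃ B).hom (φ ∘ f) := by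
  funext ⟨g, h, j⟩
  simp only [Function.comp_apply, d₂₃_hom_apply, map_sub, map_add]
  rw [hφ g _]

lemma comp_d34 (f : G × G × G → A) :
    (φ ∘ d34 A f : G × G × G × G → B) = d34 B (φ ∘ f) := by
  funext ⟨g, h, j, l⟩
  simp only [Function.comp_apply, d34, map_sub, map_add]
  rw [hφ g _]

end Equiv

/-! ### smooth elements, level-constant cochains -/

section Smooth

variable {G : Type} [Group G] (L : LevelSys G) {k : Type} [CommRing k] (A : Rep.{0, 0, 0} k G)

/-- an element fixed by some level -/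
def IsSm (a : A) : Prop := ∃ U ∈ L.levels, ∀ s ∈ U, A.ρ s a = a

variable {L A}

lemma isSm_zero : IsSm L A 0 := by
  obtain ⟨U, hU⟩ := L.nonempty
  exact ⟨U, hU, fun s _ => map_zero _⟩

/-- Finitely many smooth elements are fixed by a common normal level inside a given level. -/
lemma exists_common_level (hN : L.NormalCofinal) (T : Finset A) (hT : ∀ a ∈ T, IsSm L A a)
    (W : Subgroup G) (hW : W ∈ L.levels) :
    ∃ U ∈ L.levels, U ≤ W ∧ U.Normal ∧ ∀ a ∈ T, ∀ s ∈ U, A.ρ s a = a := by
  classical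
  induction T using Finset.induction_on with
  | empty =>
    obtain ⟨U, hU, hUW, hUn⟩ := hN W hW
    exact ⟨U, hU, hUW, hUn, fun a ha => absurd ha (Finset.notMem_empty a)⟩
  | insert a T _ ih =>
    obtain ⟨U, hU, hUW, -, hfix⟩ := ih (fun b hb => hT b (Finset.mem_insert_of_mem hb))
    obtain ⟨U', hU', hfix'⟩ := hT a (Finset.mem_insert_self a T)
    obtain ⟨U'', hU'', hle⟩ := L.directed U hU U' hU'
    obtain ⟨U₃, hU₃, hle₃, hn₃⟩ := hN U'' hU''
    refine ⟨U₃, hU₃, fun s hs => hUW (hle (hle₃ hs)).1, hn₃, fun b hb s hs => ?_⟩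
    rcases Finset.mem_insert.1 hb with rfl | hb
    · exact hfix' s (hle (hle₃ hs)).2
    · exact hfix b hb s (hle (hle₃ hs)).1

/-- A function which is right-invariant under a subgroup of finite index has finite range. -/
lemma finite_range_of_rightInv {X : Type*} (U : Subgroup G) [U.FiniteIndex] (f : G → X)
    (hf : ∀ g s : G, s ∈ U → f (g * s) = f g) : (Set.range f).Finite := by
  haveI : Finite (G ⧸ U) := Subgroup.finite_quotient_of_finiteIndex
  let f' : G ⧸ U → X := Quotient.lift f (by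
    intro a b hab
    have hab' : a⁻¹ * b ∈ U := QuotientGroup.leftRel_apply.1 hab
    have := hf a (a⁻¹ * b) hab'
    rw [mul_inv_cancel_left] at this
    exact this.symm)
  have : Set.range f ⊆ Set.range f' := by
    rintro x ⟨g, rfl⟩
    exact ⟨(g : G ⧸ U), rfl⟩
  exact (Set.finite_range f').subset this

/-- **K-I3, degree 0.** If `d a` is level constant then `a` is smooth. -/
lemma smooth_of_d01_lc (a : A) (h : L.IsLC₁ ((d₀₁ A).hom a)) : IsSm L A a := by
  obtain ⟨U, hU, hc⟩ := h
  refine ⟨U, hU, fun s hs => ?_⟩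
  have h1 := hc 1 s hs
  rw [d₀₁_hom_apply, d₀₁_hom_apply, one_mul, map_one, Module.End.one_apply, sub_self,
    sub_eq_zero] at h1
  exact h1

/-- A smooth element has level-constant coboundary. -/
lemma d01_lc_of_smooth (a : A) (h : IsSm L A a) : L.IsLC₁ ((d₀₁ A).hom a) := by
  obtain ⟨U, hU, hfix⟩ := h
  refine ⟨U, hU, fun g s hs => ?_⟩
  rw [d₀₁_hom_apply, d₀₁_hom_apply, map_mul, Module.End.mul_apply, hfix s hs]

/-- **K-I3, degree 1.** If `a` and `d a` are level constant then `a` is right-invariant under a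
normal level `U` (inside any given level) which fixes all values of `a`. -/
lemma smooth_of_d12_lc (hN : L.NormalCofinal) (a : G → A) (ha : L.IsLC₁ a)
    (hda : L.IsLC₂ ((d₁₂ A).hom a)) (W : Subgroup G) (hW : W ∈ L.levels) :
    ∃ U ∈ L.levels, U ≤ W ∧ U.Normal ∧ (∀ g s : G, s ∈ U → a (g * s) = a g) ∧
      ∀ g s : G, s ∈ U → A.ρ s (a g) = a g := by
  obtain ⟨U₁, hU₁, h₁⟩ := ha
  obtain ⟨U₂, hU₂, h₂⟩ := hda
  obtain ⟨U₃, hU₃, hle₃⟩ := L.directed U₁ hU₁ U₂ hU₂
  obtain ⟨U₄, hU₄, hle₄⟩ := L.directed U₃ hU₃ W hW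
  obtain ⟨U, hU, hle, hn⟩ := hN U₄ hU₄
  have hUU₁ : U ≤ U₁ := fun s hs => (hle₃ (hle₄ (hle hs)).1).1
  have hUU₂ : U ≤ U₂ := fun s hs => (hle₃ (hle₄ (hle hs)).1).2
  refine ⟨U, hU, fun s hs => (hle₄ (hle hs)).2, hn, fun g s hs => h₁ g s (hUU₁ hs),
    fun g s hs => ?_⟩
  have h3 := h₂ 1 g s 1 (hUU₂ hs) (one_mem _)
  rw [d₁₂_hom_apply, d₁₂_hom_apply] at h3
  simp only [one_mul, mul_one, map_one, Module.End.one_apply] at h3
  -- a (s * g) = a (g * (g⁻¹ * s * g)) = a g
  have h4 : a (s * g) = a g := by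
    have : s * g = g * (g⁻¹ * s * g) := by group
    rw [this]
    exact h₁ g _ (hUU₁ (by
      have := hn.conj_mem s hs g⁻¹
      simpa using this))
  have h5 : a s = a 1 := by
    have := h₁ 1 s (hUU₁ hs)
    rwa [one_mul] at this
  rw [h4, h5] at h3
  have h6 : A.ρ s (a g) - a g = 0 := by
    have : A.ρ s (a g) - a g + a 1 = a g - a g + a 1 := h3
    rw [sub_self, zero_add] at this
    exact add_eq_right.1 this
  exact sub_eq_zero.1 h6

/-- A cochain which is right-invariant under a normal subgroup `U` fixing all its values has a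
coboundary which is right-invariant under `U`. -/
lemma d12_rightInv_of_smooth (U : Subgroup G) [hn : U.Normal] (a : G → A)
    (ha : ∀ g s : G, s ∈ U → a (g * s) = a g) (hfix : ∀ g s : G, s ∈ U → A.ρ s (a g) = a g)
    (g g' s s' : G) (hs : s ∈ U) (hs' : s' ∈ U) :
    (d₁₂ A).hom a (g * s, g' * s') = (d₁₂ A).hom a (g, g') := by
  rw [d₁₂_hom_apply, d₁₂_hom_apply]
  have h1 : a (g' * s') = a g' := ha g' s' hs'
  have h2 : a (g * s) = a g := ha g s hs
  have h3 : a (g * s * (g' * s')) = a (g * g') := by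
    have : g * s * (g' * s') = g * g' * ((g'⁻¹ * s * g') * s') := by group
    rw [this]
    exact ha _ _ (U.mul_mem (by
      have := hn.conj_mem s hs g'⁻¹
      simpa using this) hs')
  rw [h1, h2, h3, map_mul, Module.End.mul_apply, hfix g' s hs]

end Smooth

end Fermat.Agent.S55.K.H724

end
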