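import Fermat.Agent.S55.K.H724.Basic

/-!
# S55 / layer K : induced modules, coordinates, Kummer lifting   (helper724)

* `indρ_apply` : `(g • f) x = g • f (g⁻¹ • x)` on `Ind_V A = (G ⧸ V →₀ A)`;
* a normal subgroup `U ≤ V` acts trivially on `G ⧸ V`; coordinates of `U`-fixed elements;
* equivariance of `indMap`-type maps (`mapRange`) and of `indProj`;
* `IsPDiv` : smooth elements are `p`-divisible by smooth elements; `isPDiv_ind` : this passes
  from `A` to `Ind_V A`; `exists_root_cochain` : `p`-th roots of smooth level-constant cochains.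
-/

set_option autoImplicit false

noncomputable section

namespace Fermat.Agent.S55.K.H724

open groupCohomology Fermat.Agent.S55.PT Fermat.Agent.S55.K

section Ind

variable {k : Type} [CommRing k] {G H : Type} [Group G] [Group H]

/-- view an element of `Ind_V A` as a `Finsupp` -/
def toF (φ : H →* G) (V : Subgroup G) (A : Rep.{0, 0, 0} k H) (e : ind φ V A) :
    (G ⧸ V) →₀ A := e

/-- view a `Finsupp` as an element of `Ind_V A` -/
def ofF (φ : H →* G) (V : Subgroup G) (A : Rep.{0, 0, 0} k H) (e : (G ⧸ V) →₀ A) :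
    ind φ V A := e

lemma ind_ρ_eq (φ : H →* G) (V : Subgroup G) (A : Rep.{0, 0, 0} k H) (h : H) :
    (ind φ V A).ρ h = indρ φ V A h := rfl

/-- the action on `Ind_V A` in coordinates -/
lemma indρ_apply (φ : H →* G) (V : Subgroup G) (A : Rep.{0, 0, 0} k H) (h : H)
    (f : (G ⧸ V) →₀ A) (x : G ⧸ V) :
    (indρ φ V A h f) x = A.ρ h (f ((φ h)⁻¹ • x)) := by
  classical
  induction f using Finsupp.induction_linear with
  | zero => simp
  | add f g hf hg =>
    rw [map_add, Finsupp.add_apply, hf, hg, Finsupp.add_apply, map_add]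
  | single y a =>
    rw [indρ_single, Finsupp.single_apply, Finsupp.single_apply]
    by_cases hxy : φ h • y = x
    · have : y = (φ h)⁻¹ • x := by rw [← hxy, inv_smul_smul]
      rw [if_pos hxy, if_pos this]
    · have : ¬ y = (φ h)⁻¹ • x := by
        intro hy
        exact hxy (by rw [hy, smul_inv_smul])
      rw [if_neg hxy, if_neg this, map_zero]

/-- a normal subgroup `U ≤ V` acts trivially on `G ⧸ V` -/
lemma smul_quot_of_normal_le {U V : Subgroup G} [hn : U.Normal] (hUV : U ≤ V) (u : G)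
    (hu : u ∈ U) (x : G ⧸ V) : u • x = x := by
  induction x using QuotientGroup.induction_on with
  | H g =>
    show ((u * g : G) : G ⧸ V) = (g : G ⧸ V)
    rw [QuotientGroup.eq]
    apply hUV
    have := hn.conj_mem u⁻¹ (U.inv_mem hu) g⁻¹
    simpa [mul_assoc] using this

/-- coordinates of an element of `Ind_V A` fixed by `u ∈ U`, `U ≤ V` normal -/
lemma coord_fixed {U V : Subgroup G} [U.Normal] (hUV : U ≤ V) (A : Rep.{0, 0, 0} k G)
    (f : (G ⧸ V) →₀ A) (u : G) (hu : u ∈ U)
    (hf : indρ (MonoidHom.id G) V A u f = f) (x : G ⧸ V) : A.ρ u (f x) = f x := by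
  have h := indρ_apply (MonoidHom.id G) V A u f x
  rw [hf, MonoidHom.id_apply, smul_quot_of_normal_le hUV u⁻¹ (U.inv_mem hu)] at h
  exact h.symm

/-- an element of `Ind_V A` with coordinates fixed by `u ∈ U`, `U ≤ V` normal, is fixed -/
lemma fixed_of_coord {U V : Subgroup G} [U.Normal] (hUV : U ≤ V) (A : Rep.{0, 0, 0} k G)
    (f : (G ⧸ V) →₀ A) (u : G) (hu : u ∈ U) (hf : ∀ x, A.ρ u (f x) = f x) :
    indρ (MonoidHom.id G) V A u f = f := by
  ext x
  rw [indρ_apply, MonoidHom.id_apply, smul_quot_of_normal_le hUV u⁻¹ (U.inv_mem hu), hf]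

end Ind

/-! ### `mapRange` and `indProj` are equivariant -/

section MapRange

variable {k k' : Type} [CommRing k] [CommRing k'] {G H : Type} [Group G] [Group H]

/-- `Ind_V A → Ind_V B` induced by an additive map `A →+ B` which is equivariant along `φ` -/
lemma mapRange_equivariant (φ : H →* G) (V : Subgroup G) {A : Rep.{0, 0, 0} k G}
    {B : Rep.{0, 0, 0} k' H} (ψ : A →+ B) (hψ : ∀ (h : H) (a : A), ψ (A.ρ (φ h) a) = B.ρ h (ψ a))
    (h : H) (f : (G ⧸ V) →₀ A) :
    Finsupp.mapRange.addMonoidHom ψ (indρ (MonoidHom.id G) V A (φ h) f) =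
      indρ φ V B h (Finsupp.mapRange.addMonoidHom ψ f) := by
  ext x
  rw [Finsupp.mapRange.addMonoidHom_apply, Finsupp.mapRange_apply, indρ_apply, indρ_apply,
    Finsupp.mapRange.addMonoidHom_apply, Finsupp.mapRange_apply, hψ]
  rfl

variable (φ : H →* G) {U V : Subgroup G} (hUV : U ≤ V) (A : Rep.{0, 0, 0} k H)

/-- the map `G ⧸ U → G ⧸ V` -/
def quotLE : G ⧸ U → G ⧸ V :=
  Quotient.map' id (fun a b hab => by
    rw [QuotientGroup.leftRel_apply] at hab ⊢
    exact hUV hab)

lemma quotLE_mk (g : G) : quotLE hUV (g : G ⧸ U) = (g : G ⧸ V) := rfl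

lemma quotLE_smul (g : G) (x : G ⧸ U) : quotLE hUV (g • x) = g • quotLE hUV x := by
  induction x using QuotientGroup.induction_on with
  | H a => rfl

/-- `indProj` as a map of `Finsupp`s -/
def projF : ((G ⧸ U) →₀ A) →ₗ[k] ((G ⧸ V) →₀ A) := Finsupp.lmapDomain A k (quotLE hUV)

lemma indProj_eq_projF (f : ind φ U A) : indProj φ hUV A f = projF hUV A f := rfl

lemma projF_single (x : G ⧸ U) (a : A) :
    projF hUV A (Finsupp.single x a) = Finsupp.single (quotLE hUV x) a := by
  rw [projF, Finsupp.lmapDomain_apply, Finsupp.mapDomain_single]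

lemma projF_equivariant (h : H) (f : (G ⧸ U) →₀ A) :
    projF hUV A (indρ φ U A h f) = indρ φ V A h (projF hUV A f) := by
  have key : projF hUV A ∘ₗ indρ φ U A h = indρ φ V A h ∘ₗ projF hUV A := by
    apply Finsupp.lhom_ext
    intro y a
    rw [LinearMap.comp_apply, LinearMap.comp_apply, indρ_single, projF_single, projF_single,
      indρ_single, quotLE_smul]
  exact LinearMap.congr_fun key f

end MapRange

/-! ### `p`-divisibility of smooth elements -/

section PDiv

variable {G : Type} [Group G] (L : LevelSys G) (A : Rep.{0, 0, 0} ℤ G) (p : ℕ)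

/-- smooth elements are `p`-divisible by smooth elements -/
def IsPDiv : Prop := ∀ a : A, IsSm L A a → ∃ b : A, p • b = a ∧ IsSm L A b

variable {L A p}

/-- `p`-divisibility of smooth elements passes to `Ind_V A`. -/
lemma isPDiv_ind (hN : L.NormalCofinal) (h : IsPDiv L A p) (V : Subgroup G)
    (hV : V ∈ L.levels) : IsPDiv L (indG V A) p := by
  classical
  intro e he
  obtain ⟨U₀, hU₀, hfix₀⟩ := he
  obtain ⟨U₁', hU₁', hle₁'⟩ := L.directed U₀ hU₀ V hV
  obtain ⟨U₁, hU₁, hle₁, hn₁⟩ := hN U₁' hU₁'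
  have hU₁V : U₁ ≤ V := fun s hs => (hle₁' (hle₁ hs)).2
  have hU₁U₀ : U₁ ≤ U₀ := fun s hs => (hle₁' (hle₁ hs)).1
  let ef : (G ⧸ V) →₀ A := e
  have hcoord : ∀ x, IsSm L A (ef x) := fun x =>
    ⟨U₁, hU₁, fun s hs => coord_fixed hU₁V A ef s hs (hfix₀ s (hU₁U₀ hs)) x⟩
  choose! root hroot using h
  let root' : A → A := fun a => if a = 0 then 0 else root a
  have hroot'0 : root' 0 = 0 := if_pos rfl
  have hroot' : ∀ a, IsSm L A a → p • root' a = a ∧ IsSm L A (root' a) := by
    intro a ha
    by_cases h0 : a = 0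
    · subst h0
      rw [hroot'0]
      exact ⟨smul_zero _, isSm_zero⟩
    · simp only [root', if_neg h0]
      exact hroot a ha
  let e' : (G ⧸ V) →₀ A := Finsupp.mapRange root' hroot'0 ef
  refine ⟨e', ?_, ?_⟩
  · show (p • e' : (G ⧸ V) →₀ A) = ef
    ext x
    rw [Finsupp.smul_apply, Finsupp.mapRange_apply]
    exact (hroot' (ef x) (hcoord x)).1
  · obtain ⟨U₂, hU₂, hle₂, hn₂, hfix₂⟩ := exists_common_level hN
      (ef.support.image (fun x => root' (ef x)))
      (fun a ha => by
        obtain ⟨x, -, rfl⟩ := Finset.mem_image.1 ha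
        exact (hroot' (ef x) (hcoord x)).2) V hV
    refine ⟨U₂, hU₂, fun s hs => ?_⟩
    apply fixed_of_coord hle₂ A e' s hs
    intro x
    by_cases hx : x ∈ ef.support
    · exact hfix₂ _ (Finset.mem_image_of_mem _ hx) s hs
    · have h0 : ef x = 0 := Finsupp.notMem_support_iff.1 hx
      have h1 : e' x = 0 := by rw [Finsupp.mapRange_apply, h0, hroot'0]
      rw [h1, map_zero]

/-- `p`-th roots of smooth level-constant 1-cochains. -/
lemma exists_root_cochain (hN : L.NormalCofinal) (hF : L.FiniteIndex) (h : IsPDiv L A p)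
    (a : G → A) (U : Subgroup G) (hU : U ∈ L.levels)
    (ha : ∀ g s : G, s ∈ U → a (g * s) = a g) (hfix : ∀ g s : G, s ∈ U → A.ρ s (a g) = a g) :
    ∃ a' : G → A, p • a' = a ∧ ∃ U' ∈ L.levels, U' ≤ U ∧ U'.Normal ∧
      (∀ g s : G, s ∈ U' → a' (g * s) = a' g) ∧ ∀ g s : G, s ∈ U' → A.ρ s (a' g) = a' g := by
  classical
  choose! root hroot using h
  have hsm : ∀ g, IsSm L A (a g) := fun g => ⟨U, hU, fun s hs => hfix g s hs⟩
  haveI := hF U hU
  have hfin : (Set.range a).Finite := finite_range_of_rightInv U a ha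
  obtain ⟨U', hU', hle', hn', hfix'⟩ := exists_common_level hN (hfin.toFinset.image root)
    (fun b hb => by
      obtain ⟨c, hc, rfl⟩ := Finset.mem_image.1 hb
      obtain ⟨g, rfl⟩ := hfin.mem_toFinset.1 hc
      exact (hroot (a g) (hsm g)).2) U hU
  refine ⟨fun g => root (a g), ?_, U', hU', hle', hn', fun g s hs => ?_, fun g s hs => ?_⟩
  · funext g
    exact (hroot (a g) (hsm g)).1
  · show root (a (g * s)) = root (a g)
    rw [ha g s (hle' hs)]
  · exact hfix' _ (Finset.mem_image_of_mem _ (hfin.mem_toFinset.2 ⟨g, rfl⟩)) s hs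

end PDiv

end Fermat.Agent.S55.K.H724

end
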