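import Fermat.Agent.S55.K.H724.Ind
import Fermat.Agent.S55.PT.LevelsNormal

/-!
# S55 / layer K : the Kummer map `Ind_V μ_p → Ind_V 𝔼`   (helper724)

* `muToE_equivariant`, `indMuToE_equivariant`, `indMuToE_injective`;
* `exists_tors` : the image of `Ind_V μ_p` is the `p`-torsion of `Ind_V 𝔼`;
* `isPDiv_of_kummer` : `KummerSpec` in the form `IsPDiv`.
-/

set_option autoImplicit false

noncomputable section

namespace Fermat.Agent.S55.K.H724

open groupCohomology Fermat.Agent.S55.PT Fermat.Agent.S55.K Fermat.Agent.S55.Bridge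

variable (p : ℕ) [Fact p.Prime] (S : Finset Nat.Primes)

lemma sUnits_ρ_coe (g : GQ) (x : sUnits S) :
    ((Additive.toMul (sUnitsIncl S ((sUnits S).ρ g x)) : Qbarˣ) : Qbar) =
      g ((Additive.toMul (sUnitsIncl S x) : Qbarˣ) : Qbar) := rfl

lemma sUnitsIncl_injective : Function.Injective (sUnitsIncl S) :=
  Subtype.val_injective

lemma muToE_coe (x : muP p) :
    ((Additive.toMul (sUnitsIncl S (muToE p S x)) : Qbarˣ) : Qbar) =
      ((MuP.root (p := p) x : rootsOfUnity p Qbar) : Qbarˣ) := rfl

lemma muToE_equivariant (g : GQ) (a : muP p) :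
    muToE p S ((muP p).ρ g a) = (sUnits S).ρ g (muToE p S a) := by
  apply sUnitsIncl_injective
  apply Additive.toMul.injective
  apply Units.ext
  exact (muToE_coe p S _).trans ((muPRep_apply p g a).trans
    ((congrArg g (muToE_coe p S a)).symm.trans (sUnits_ρ_coe S g _).symm))

lemma indMuToE_equivariant (V : Subgroup GQ) : IsAddEquivariant (indMuToE p S V) := by
  intro g a
  exact mapRange_equivariant (MonoidHom.id GQ) V (muToE p S) (muToE_equivariant p S) g a

lemma indMuToE_injective (V : Subgroup GQ) : Function.Injective (indMuToE p S V) := by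
  intro a b hab
  exact Finsupp.mapRange_injective (muToE p S) (map_zero _) (muToE_injective p S) hab

/-- the `p`-torsion of `𝔼` is `μ_p` -/
lemma exists_tors₀ (t : sUnits S) (ht : p • t = 0) : ∃ m : muP p, muToE p S m = t := by
  have h1 : (Additive.toMul (sUnitsIncl S t) : Qbarˣ) ^ p = 1 := by
    have h2 : sUnitsIncl S (p • t) = 0 := by rw [ht, map_zero]
    rw [map_nsmul] at h2
    exact h2
  have h3 : (Additive.toMul (sUnitsIncl S t) : Qbarˣ) ∈ rootsOfUnity p Qbar :=
    (mem_rootsOfUnity p _).2 h1
  refine ⟨MuP.of p ⟨_, h3⟩, ?_⟩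
  apply sUnitsIncl_injective
  rfl

/-- the `p`-torsion of `Ind_V 𝔼` is `Ind_V μ_p` -/
lemma exists_tors (V : Subgroup GQ) :
    ∃ F : indG V (sUnits S) → indG V (muP p),
      ∀ e : indG V (sUnits S), p • e = 0 → indMuToE p S V (F e) = e := by
  classical
  have h : ∀ t : sUnits S, ∃ m : muP p, p • t = 0 → muToE p S m = t := by
    intro t
    by_cases ht : p • t = 0
    · obtain ⟨m, hm⟩ := exists_tors₀ p S t ht
      exact ⟨m, fun _ => hm⟩
    · exact ⟨0, fun h => absurd h ht⟩
  choose tors htors using h
  let tors' : sUnits S → muP p := fun t => if t = 0 then 0 else tors t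
  have htors'0 : tors' 0 = 0 := if_pos rfl
  have htors' : ∀ t : sUnits S, p • t = 0 → muToE p S (tors' t) = t := by
    intro t ht
    by_cases h0 : t = 0
    · subst h0
      rw [htors'0, map_zero]
    · simp only [tors', if_neg h0]
      exact htors t ht
  refine ⟨fun e => ofF (MonoidHom.id GQ) V (muP p)
    (Finsupp.mapRange tors' htors'0 (toF (MonoidHom.id GQ) V (sUnits S) e)), fun e he => ?_⟩
  let ef : (GQ ⧸ V) →₀ sUnits S := toF (MonoidHom.id GQ) V (sUnits S) e
  have he' : ∀ x, p • ef x = 0 := by
    intro x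
    have h0 : p • ef = 0 := he
    have : (p • ef) x = 0 := by
      rw [h0]
      rfl
    rwa [Finsupp.smul_apply] at this
  show Finsupp.mapRange (muToE p S) (map_zero _) (Finsupp.mapRange tors' htors'0 ef) = ef
  ext x
  rw [Finsupp.mapRange_apply, Finsupp.mapRange_apply]
  exact htors' _ (he' x)

/-- `KummerSpec` says that smooth `S`-units are `p`-divisible by smooth `S`-units. -/
lemma isPDiv_of_kummer (hK : KummerSpec p S) (hpS : ExtCitation.pPrime p ∈ S) :
    IsPDiv (globalLevels S) (sUnits S) p :=
  fun a ha => hK hpS a ha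

/-- normal levels are cofinal in `globalLevels S` -/
lemma globalLevels_normalCofinal : (globalLevels S).NormalCofinal :=
  globalLevels_normal_cofinal724 S

/-- levels of `globalLevels S` have finite index -/
lemma globalLevels_finiteIndex : (globalLevels S).FiniteIndex := by
  rintro U ⟨F, hF, rfl⟩
  have := hF.1
  have := isAlgebraic_Qbar
  have := isGalois_Qbar
  refine ⟨?_⟩
  rw [← IntermediateField.finrank_eq_fixingSubgroup_index]
  exact Module.finrank_pos.ne'

end Fermat.Agent.S55.K.H724

end
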